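import Mathlib
import Fermat.Prelude.Thm_ModularForm_sturm_bound_Gamma0

set_option autoImplicit false

open scoped MatrixGroups

namespace Fermat.Agent.S07

open CongruenceSubgroup in
/-- The index of `Γ₀(N)` in `SL(2, ℤ)` is at most `N ^ 2` (crude bound via the first column). -/
theorem index_Gamma0_le (N : ℕ) [NeZero N] : (Gamma0 N).index ≤ N ^ 2 := by
  classical
  let f : SL(2, ℤ) → ZMod N × ZMod N := fun g => (((g 0 0 : ℤ) : ZMod N), ((g 1 0 : ℤ) : ZMod N))
  have hf : ∀ g g' : SL(2, ℤ), f g = f g' → g⁻¹ * g' ∈ Gamma0 N := by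
    intro g g' h
    rw [Gamma0_mem]
    have h0 : ((g 0 0 : ℤ) : ZMod N) = ((g' 0 0 : ℤ) : ZMod N) := congrArg Prod.fst h
    have h1 : ((g 1 0 : ℤ) : ZMod N) = ((g' 1 0 : ℤ) : ZMod N) := congrArg Prod.snd h
    have : (g⁻¹ * g') 1 0 = - g 1 0 * g' 0 0 + g 0 0 * g' 1 0 := by
      rw [Matrix.SpecialLinearGroup.coe_mul, Matrix.SpecialLinearGroup.coe_inv,
        Matrix.adjugate_fin_two, Matrix.mul_apply, Fin.sum_univ_two]
      simp
    rw [this]
    push_cast
    rw [← h0, ← h1]
    ring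
  let φ : SL(2, ℤ) ⧸ Gamma0 N → ZMod N × ZMod N := fun q => f q.out
  have hφ : Function.Injective φ := by
    intro q q' h
    have := hf _ _ h
    rw [← QuotientGroup.out_eq' q, ← QuotientGroup.out_eq' q']
    exact QuotientGroup.eq.mpr this
  have := Nat.card_le_card_of_injective φ hφ
  rw [Subgroup.index]
  refine this.trans ?_
  simp [sq]

theorem cuspForm_Gamma0_eq_zero_of_small (N : ℕ) [NeZero N] (hN : N ^ 2 < 6)
    (f : CuspForm (CongruenceSubgroup.Gamma0 N) 2) : f = 0 := by
  have hidx : ((2 : ℤ) * (CongruenceSubgroup.Gamma0 N).index).toNat / 12 = 0 := by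
    have h1 := index_Gamma0_le N
    have h2 : ((2 : ℤ) * (CongruenceSubgroup.Gamma0 N).index).toNat
        = 2 * (CongruenceSubgroup.Gamma0 N).index := by
      have : ((2 : ℤ) * (CongruenceSubgroup.Gamma0 N).index)
          = ((2 * (CongruenceSubgroup.Gamma0 N).index : ℕ) : ℤ) := by push_cast; ring
      rw [this, Int.toNat_natCast]
    rw [h2]
    omega
  have h1 : (1 : ℝ) ∈ (CongruenceSubgroup.Gamma0 N : Subgroup (GL (Fin 2) ℝ)).strictPeriods := by
    simp [CongruenceSubgroup.strictPeriods_Gamma0]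
  have hmf : (ModularFormClass.modularForm f : ModularForm (CongruenceSubgroup.Gamma0 N) 2) = 0 := by
    refine ModularForm.sturm_bound_Gamma0 N _ fun n hn => ?_
    rw [hidx] at hn
    obtain rfl : n = 0 := Nat.le_zero.mp hn
    exact CuspFormClass.qExpansion_coeff_zero f one_pos h1
  have hcoe : (⇑f : UpperHalfPlane → ℂ) = 0 := by
    have := congrArg (fun F : ModularForm (CongruenceSubgroup.Gamma0 N) 2 =>
      (⇑F : UpperHalfPlane → ℂ)) hmf
    simpa using this
  exact DFunLike.coe_injective (hcoe.trans (by simp))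

end Fermat.Agent.S07
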